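import Mathlib
import Fermat.Agent.S16.MF.Exp
import Fermat.Agent.S16.E2b.Main

/-!
# S16 / E2 / Iface (owner helper2): the weight-2 Eisenstein series of prime level

Statements FROZEN. The proof of `exists_Estar` is `E2b.exists_Estar` (`E2b/Main.lean`, helper8's team);
an independent second proof is `E2.exists_Estar` (`E2/Main.lean`, helper2's team).

`E*_N = (N E₂(N z) - E₂(z)) / (N - 1) = 1 + (24 / (N - 1)) ∑_{k ≥ 1} σ'_N(k) q^k ∈ M₂(Γ₀(N))`.
-/

set_option autoImplicit false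

open UpperHalfPlane ModularForm CongruenceSubgroup Complex Function
open scoped MatrixGroups ModularForm Real

namespace Fermat.Agent.S16

open Fermat.Agent.S23 (Gam)

/-- (E2) For `N` prime there is `E ∈ M₂(Γ₀(N))` with `a₀ = 1`, `(N - 1) a_k = 24 σ'_N(k)`. -/
theorem exists_Estar {N : ℕ} (hN : N.Prime) :
    ∃ E : ModularForm (Gam N) 2, (qExpansion 1 E).coeff 0 = 1 ∧
      ∀ k : ℕ, 1 ≤ k → ((N : ℂ) - 1) * (qExpansion 1 E).coeff k = 24 * (sigmaNat N k : ℂ) :=
  E2b.exists_Estar hN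

/-- A choice of `E*_N` (junk value `0` if `N` is not prime). -/
noncomputable def Estar (N : ℕ) : ModularForm (Gam N) 2 :=
  if hN : N.Prime then (exists_Estar hN).choose else 0

theorem Estar_coeff_zero {N : ℕ} (hN : N.Prime) : (qExpansion 1 (Estar N)).coeff 0 = 1 := by
  rw [Estar, dif_pos hN]
  exact (exists_Estar hN).choose_spec.1

theorem Estar_coeff {N : ℕ} (hN : N.Prime) (k : ℕ) (hk : 1 ≤ k) :
    ((N : ℂ) - 1) * (qExpansion 1 (Estar N)).coeff k = 24 * (sigmaNat N k : ℂ) := by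
  rw [Estar, dif_pos hN]
  exact (exists_Estar hN).choose_spec.2 k hk

/-- The coefficients of `E*_N` in closed form. -/
theorem Estar_coeff' {N : ℕ} (hN : N.Prime) (k : ℕ) (hk : 1 ≤ k) :
    (qExpansion 1 (Estar N)).coeff k = 24 / ((N : ℂ) - 1) * (sigmaNat N k : ℂ) := by
  have h1 : ((N : ℂ) - 1) ≠ 0 := sub_ne_zero.mpr (by exact_mod_cast hN.one_lt.ne')
  rw [div_mul_eq_mul_div, eq_div_iff h1, mul_comm]
  exact Estar_coeff hN k hk

end Fermat.Agent.S16
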