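import Fermat.Agent.S16.E2.Defs

/-!
# S16 / E2 / BddComp: boundedness at i∞ is preserved by z ↦ p z and z ↦ (z + j) / p
(one worker per file; the STATEMENTS are frozen by helper2 — prove them, do not change them;
auxiliary lemmas go into the namespace `Fermat.Agent.S16.E2.BddCompAux`.)
-/

set_option autoImplicit false

open UpperHalfPlane ModularForm CongruenceSubgroup Complex Function
open scoped MatrixGroups ModularForm Real Manifold

namespace Fermat.Agent.S16.E2

namespace BddCompAux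

/-- The imaginary part of the point `p z`. -/
theorem im_heckeDiagMatrix_smul {p : ℕ} (hp : p ≠ 0) (z : ℍ) :
    (ModularForm.heckeDiagMatrix p • z : ℍ).im = (p : ℝ) * z.im := by
  have h1 : ((ModularForm.heckeDiagMatrix p • z : ℍ) : ℂ).im = ((p : ℂ) * (z : ℂ)).im := by
    rw [ModularForm.coe_heckeDiagMatrix_smul hp]
  rw [UpperHalfPlane.coe_im, Complex.mul_im, Complex.natCast_re, Complex.natCast_im, zero_mul,
    add_zero, UpperHalfPlane.coe_im] at h1
  exact h1

/-- The imaginary part of the point `(z + j) / p`. -/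
theorem im_heckeMatrix_smul {p : ℕ} (hp : p ≠ 0) (j : ℕ) (z : ℍ) :
    (ModularForm.heckeMatrix p j • z : ℍ).im = z.im / (p : ℝ) := by
  have h1 : ((ModularForm.heckeMatrix p j • z : ℍ) : ℂ).im =
      (((z : ℂ) + (j : ℂ)) / (p : ℂ)).im := by
    rw [ModularForm.coe_heckeMatrix_smul hp]
  rw [UpperHalfPlane.coe_im, Complex.div_natCast_im, Complex.add_im, Complex.natCast_im,
    add_zero, UpperHalfPlane.coe_im] at h1
  exact h1

end BddCompAux

/-- If `F` is bounded at `i∞` and `H z = F (p z)` then `H` is bounded at `i∞`. -/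
theorem bdd_comp_mul {p : ℕ} (hp : p ≠ 0) {F H : ℍ → ℂ} (hF : IsBoundedAtImInfty F)
    (hH : ∀ z w : ℍ, (w : ℂ) = p * z → H z = F w) : IsBoundedAtImInfty H := by
  rw [UpperHalfPlane.isBoundedAtImInfty_iff] at hF ⊢
  obtain ⟨M, A, hMA⟩ := hF
  refine ⟨M, A, fun z hz => ?_⟩
  rw [hH z (ModularForm.heckeDiagMatrix p • z) (ModularForm.coe_heckeDiagMatrix_smul hp z)]
  apply hMA
  rw [BddCompAux.im_heckeDiagMatrix_smul hp]
  have hp1 : (1 : ℝ) ≤ (p : ℝ) := by exact_mod_cast Nat.one_le_iff_ne_zero.mpr hp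
  have hz0 : 0 < z.im := z.im_pos
  nlinarith

/-- If `F` is bounded at `i∞` and `H z = F ((z + j) / p)` then `H` is bounded at `i∞`. -/
theorem bdd_comp_affine {p : ℕ} (hp : p ≠ 0) (j : ℕ) {F H : ℍ → ℂ} (hF : IsBoundedAtImInfty F)
    (hH : ∀ z w : ℍ, (w : ℂ) = (z + j) / p → H z = F w) : IsBoundedAtImInfty H := by
  rw [UpperHalfPlane.isBoundedAtImInfty_iff] at hF ⊢
  obtain ⟨M, A, hMA⟩ := hF
  refine ⟨M, (p : ℝ) * A, fun z hz => ?_⟩
  rw [hH z (ModularForm.heckeMatrix p j • z) (ModularForm.coe_heckeMatrix_smul hp j z)]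
  apply hMA
  rw [BddCompAux.im_heckeMatrix_smul hp]
  have hp0 : (0 : ℝ) < (p : ℝ) := by exact_mod_cast Nat.pos_of_ne_zero hp
  rw [le_div_iff₀ hp0]
  linarith

end Fermat.Agent.S16.E2
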