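import Fermat.Agent.S16.E2.BddE2
import Fermat.Agent.S16.E2.BddComp
import Fermat.Agent.S16.VP.SlashDvd
import Fermat.Agent.S16.VP.SlashNotDvd

/-!
# S16 / E2 / Bdd: every translate of E*_N is bounded at i∞ (N prime)
(one worker per file; the STATEMENTS are frozen by helper2 — prove them, do not change them;
auxiliary lemmas go into the namespace `Fermat.Agent.S16.E2.BddAux`.)
-/

set_option autoImplicit false

open UpperHalfPlane ModularForm CongruenceSubgroup Complex Function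
open scoped MatrixGroups ModularForm Real Manifold

namespace Fermat.Agent.S16.E2

namespace BddAux

/-- Every translate `E₂(N ·) ∣[2] γ`, `γ ∈ SL(2, ℤ)`, is bounded at `i∞` (`N` prime). -/
theorem E2N_slash_bdd {N : ℕ} (hN : N.Prime) (γ : SL(2, ℤ)) :
    IsBoundedAtImInfty ((E2N N) ∣[(2 : ℤ)] γ) := by
  by_cases hdvd : (N : ℤ) ∣ γ 1 0
  · obtain ⟨γ', -, -, -, h⟩ := VP.slash_of_dvd hN.ne_zero 2 (g := EisensteinSeries.E2)
      (G := E2N N) (fun z w h => E2N_eq hN.ne_zero z w h) γ hdvd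
    exact bdd_comp_mul hN.ne_zero (E2_slash_bdd γ') h
  · obtain ⟨γ', j, -, -, -, h⟩ := VP.slash_of_not_dvd hN 2 (g := EisensteinSeries.E2)
      (G := E2N N) (fun z w h => E2N_eq hN.ne_zero z w h) γ hdvd
    have hF : IsBoundedAtImInfty
        (fun w : ℍ => (N : ℂ) ^ (-(2 : ℤ)) * (EisensteinSeries.E2 ∣[(2 : ℤ)] γ') w) :=
      (E2_slash_bdd γ').smul ((N : ℂ) ^ (-(2 : ℤ)))
    exact bdd_comp_affine hN.ne_zero j hF h

/-- The translate of `E*_N` as a linear combination of the translates of `E₂(N ·)` and `E₂`. -/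
theorem EstarFun_slash_eq (N : ℕ) (γ : SL(2, ℤ)) :
    (EstarFun N) ∣[(2 : ℤ)] γ = ((N : ℂ) - 1)⁻¹ •
      ((N : ℂ) • ((E2N N) ∣[(2 : ℤ)] γ) + -(EisensteinSeries.E2 ∣[(2 : ℤ)] γ)) := by
  funext z
  simp only [ModularForm.SL_slash_apply, EstarFun_apply, Pi.smul_apply, Pi.add_apply,
    Pi.neg_apply, smul_eq_mul]
  ring

end BddAux

/-- Every translate `E*_N ∣[2] γ`, `γ ∈ SL(2, ℤ)`, is bounded at `i∞` (`N` prime). -/
theorem EstarFun_slash_bdd {N : ℕ} (hN : N.Prime) (γ : SL(2, ℤ)) :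
    IsBoundedAtImInfty ((EstarFun N) ∣[(2 : ℤ)] γ) := by
  rw [BddAux.EstarFun_slash_eq]
  exact (((BddAux.E2N_slash_bdd hN γ).smul (N : ℂ)).add (E2_slash_bdd γ).neg).smul _

end Fermat.Agent.S16.E2
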