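import Fermat.Agent.S16.E2.Defs

/-!
# S16 / E2 / BddE2: every translate of E₂ is bounded at i∞
(one worker per file; the STATEMENTS are frozen by helper2 — prove them, do not change them;
auxiliary lemmas go into the namespace `Fermat.Agent.S16.E2.BddE2Aux`.)
-/

set_option autoImplicit false

open UpperHalfPlane ModularForm CongruenceSubgroup Complex Function
open scoped MatrixGroups ModularForm Real Manifold

namespace Fermat.Agent.S16.E2

namespace BddE2Aux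

/-- `D₂ γ = 2πi c / (c z + d)` is bounded at `i∞` (by `2π` on `im z ≥ 1`). -/
theorem D2_bdd (γ : SL(2, ℤ)) : IsBoundedAtImInfty (EisensteinSeries.D2 γ) := by
  rw [UpperHalfPlane.isBoundedAtImInfty_iff]
  refine ⟨2 * π, 1, fun z hz => ?_⟩
  have hden : denom γ z ≠ 0 := UpperHalfPlane.denom_ne_zero γ z
  have hpos : 0 < ‖denom γ z‖ := norm_pos_iff.mpr hden
  have him : (denom γ z).im = ((γ 1 0 : ℤ) : ℝ) * z.im := by
    rw [ModularGroup.denom_apply]
    simp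
  have hle : |((γ 1 0 : ℤ) : ℝ)| ≤ ‖denom γ z‖ := by
    calc |((γ 1 0 : ℤ) : ℝ)| ≤ |((γ 1 0 : ℤ) : ℝ)| * z.im :=
          le_mul_of_one_le_right (abs_nonneg _) hz
      _ = |(denom γ z).im| := by rw [him, abs_mul, abs_of_pos z.im_pos]
      _ ≤ ‖denom γ z‖ := Complex.abs_im_le_norm _
  have hnum : ‖(2 * π * Complex.I * ((γ 1 0 : ℤ) : ℂ) : ℂ)‖ = 2 * π * |((γ 1 0 : ℤ) : ℝ)| := by
    simp [abs_of_pos Real.pi_pos]
  show ‖(2 * π * Complex.I * ((γ 1 0 : ℤ) : ℂ)) / denom γ z‖ ≤ 2 * π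
  rw [norm_div, hnum, div_le_iff₀ hpos]
  have h2 : (0 : ℝ) ≤ 2 * π := by positivity
  nlinarith

end BddE2Aux

/-- `E₂ ∣[2] γ = E₂ - (1 / (2 ζ(2))) D₂ γ` is bounded at `i∞`. -/
theorem E2_slash_bdd (γ : SL(2, ℤ)) :
    IsBoundedAtImInfty (EisensteinSeries.E2 ∣[(2 : ℤ)] γ) := by
  rw [EisensteinSeries.E2_slash_action]
  have hD : IsBoundedAtImInfty (EisensteinSeries.D2 γ) := BddE2Aux.D2_bdd γ
  have h1 : IsBoundedAtImInfty ((1 / (2 * riemannZeta 2)) • EisensteinSeries.D2 γ) :=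
    Filter.BoundedAtFilter.smul _ hD
  have h2 : IsBoundedAtImInfty EisensteinSeries.E2 := EisensteinSeries.isBoundedAtImInfty_E2
  rw [sub_eq_add_neg]
  exact Filter.BoundedAtFilter.add h2 (Filter.BoundedAtFilter.neg h1)

end Fermat.Agent.S16.E2
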