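import Mathlib
import Fermat.Agent.S16.MF.Exp
import Fermat.Prelude.Def_ModularForm_HeckeOperator

/-!
# S16 / E2 / Defs (owner helper2; FROZEN)

* `E2N N z = E₂(N z)` (`N z` is the point `ModularForm.heckeDiagMatrix N • z` of the prelude);
* `EstarFun N = (N E₂(N z) - E₂(z)) / (N - 1)`;
* `E2series = 1 - 24 ∑_{m ≥ 1} σ₁(m) X^m`, `EstarSeries N = 1 + (24 / (N - 1)) ∑_{k ≥ 1} σ'_N(k) X^k`.
-/

set_option autoImplicit false

open UpperHalfPlane ModularForm CongruenceSubgroup Complex Function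
open scoped MatrixGroups ModularForm Real Manifold

namespace Fermat.Agent.S16.E2

/-- `E₂(N z)`. -/
noncomputable def E2N (N : ℕ) : ℍ → ℂ :=
  fun z => EisensteinSeries.E2 (ModularForm.heckeDiagMatrix N • z)

theorem E2N_apply (N : ℕ) (z : ℍ) :
    E2N N z = EisensteinSeries.E2 (ModularForm.heckeDiagMatrix N • z) := rfl

/-- `E2N N z = E₂(w)` for any point `w` with `w = N z`. -/
theorem E2N_eq {N : ℕ} (hN : N ≠ 0) (z w : ℍ) (h : (w : ℂ) = N * z) :
    E2N N z = EisensteinSeries.E2 w := by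
  rw [E2N_apply]
  congr 1
  apply UpperHalfPlane.ext
  rw [ModularForm.coe_heckeDiagMatrix_smul hN, h]

/-- `E*_N = (N E₂(N z) - E₂(z)) / (N - 1)`. -/
noncomputable def EstarFun (N : ℕ) : ℍ → ℂ :=
  fun z => ((N : ℂ) * E2N N z - EisensteinSeries.E2 z) / ((N : ℂ) - 1)

theorem EstarFun_apply (N : ℕ) (z : ℍ) :
    EstarFun N z = ((N : ℂ) * E2N N z - EisensteinSeries.E2 z) / ((N : ℂ) - 1) := rfl

/-- The `q`-expansion of `E₂`: `1 - 24 ∑_{m ≥ 1} σ₁(m) X^m`. -/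
noncomputable def E2series : PowerSeries ℂ :=
  PowerSeries.mk fun m => if m = 0 then 1 else -24 * (ArithmeticFunction.sigma 1 m : ℂ)

/-- The `q`-expansion of `E*_N`: `1 + (24 / (N - 1)) ∑_{k ≥ 1} σ'_N(k) X^k`. -/
noncomputable def EstarSeries (N : ℕ) : PowerSeries ℂ :=
  PowerSeries.mk fun k => if k = 0 then 1 else 24 / ((N : ℂ) - 1) * (sigmaNat N k : ℂ)

end Fermat.Agent.S16.E2
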