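import Fermat.Agent.S16.E2.Defs

/-!
# S16 / E2 / Sigma: σ₁(k) = σ'_N(k) + N σ₁(k / N) [N ∣ k]
(one worker per file; the STATEMENTS are frozen by helper2 — prove them, do not change them;
auxiliary lemmas go into the namespace `Fermat.Agent.S16.E2.SigmaAux`.)
-/

set_option autoImplicit false

open UpperHalfPlane ModularForm CongruenceSubgroup Complex Function
open scoped MatrixGroups ModularForm Real Manifold

namespace Fermat.Agent.S16.E2

namespace SigmaAux

/-- The sum of the divisors of `k` which are multiples of `N` is `N · σ₁(k / N) · [N ∣ k]`. -/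
theorem sum_divisors_filter_dvd (N k : ℕ) :
    ∑ d ∈ k.divisors with N ∣ d, d
      = N * (if N ∣ k then ArithmeticFunction.sigma 1 (k / N) else 0) := by
  by_cases hNk : N ∣ k
  · rw [if_pos hNk]
    rcases Nat.eq_zero_or_pos k with hk0 | hkpos
    · subst hk0
      simp
    · obtain ⟨m, rfl⟩ := hNk
      have hN0 : N ≠ 0 := by
        rintro rfl
        simp at hkpos
      have hm0 : m ≠ 0 := by
        rintro rfl
        simp at hkpos
      have hNpos : 0 < N := Nat.pos_of_ne_zero hN0
      rw [Nat.mul_div_cancel_left m hNpos, ArithmeticFunction.sigma_one_apply, Finset.mul_sum]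
      -- the divisors of `N * m` which are multiples of `N` are the `N * e`, `e ∣ m`
      have himage : (N * m).divisors.filter (fun d => N ∣ d)
          = m.divisors.image (fun e => N * e) := by
        ext d
        simp only [Finset.mem_filter, Nat.mem_divisors, Finset.mem_image]
        constructor
        · rintro ⟨⟨hd, _⟩, e, rfl⟩
          exact ⟨e, ⟨(Nat.mul_dvd_mul_iff_left hNpos).mp hd, hm0⟩, rfl⟩
        · rintro ⟨e, ⟨he, _⟩, rfl⟩
          exact ⟨⟨Nat.mul_dvd_mul_left N he, Nat.mul_ne_zero hN0 hm0⟩, dvd_mul_right N e⟩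
      rw [himage, Finset.sum_image]
      intro a _ b _ hab
      exact Nat.eq_of_mul_eq_mul_left hNpos hab
  · rw [if_neg hNk, mul_zero]
    apply Finset.sum_eq_zero
    intro d hd
    rw [Finset.mem_filter, Nat.mem_divisors] at hd
    exact absurd (dvd_trans hd.2 hd.1.1) hNk

end SigmaAux

/-- `σ'_N(k) + N · σ₁(k / N) · [N ∣ k] = σ₁(k)` (true for all `N`, `k`). -/
theorem sigmaNat_add (N k : ℕ) :
    sigmaNat N k + N * (if N ∣ k then ArithmeticFunction.sigma 1 (k / N) else 0)
      = ArithmeticFunction.sigma 1 k := by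
  rw [← SigmaAux.sum_divisors_filter_dvd, ArithmeticFunction.sigma_one_apply, add_comm,
    sigmaNat_def]
  exact Finset.sum_filter_add_sum_filter_not k.divisors (fun d => N ∣ d) (fun d => d)

end Fermat.Agent.S16.E2
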