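import Fermat.Agent.S16.E2.ExpE2
import Fermat.Agent.S16.E2.Sigma

/-!
# S16 / E2 / Exp: the expansion of E*_N
(one worker per file; the STATEMENTS are frozen by helper2 — prove them, do not change them;
auxiliary lemmas go into the namespace `Fermat.Agent.S16.E2.ExpAux`.)
-/

set_option autoImplicit false

open UpperHalfPlane ModularForm CongruenceSubgroup Complex Function
open scoped MatrixGroups ModularForm Real Manifold

namespace Fermat.Agent.S16.E2

namespace ExpAux

theorem sub_one_ne_zero {N : ℕ} (hN : 2 ≤ N) : (N : ℂ) - 1 ≠ 0 := by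
  have h1 : (N : ℂ) ≠ 1 := by
    have h2 : N ≠ 1 := by omega
    exact_mod_cast h2
  exact sub_ne_zero.mpr h1

theorem series_eq {N : ℕ} (hN : 2 ≤ N) (hN0 : N ≠ 0) :
    ((N : ℂ) - 1)⁻¹ • ((N : ℂ) • PowerSeries.expand N hN0 E2series - E2series) =
      EstarSeries N := by
  have hN1 := sub_one_ne_zero hN
  ext k
  rw [map_smul, map_sub, map_smul, PowerSeries.coeff_expand, smul_eq_mul, smul_eq_mul]
  unfold E2series EstarSeries
  simp only [PowerSeries.coeff_mk]
  have hsig := congrArg (Nat.cast : ℕ → ℂ) (sigmaNat_add N k)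
  push_cast at hsig
  by_cases hk : k = 0
  · subst hk
    simp only [dvd_zero, if_true, Nat.zero_div]
    field_simp
  · by_cases hd : N ∣ k
    · have hkN : k / N ≠ 0 := by
        obtain ⟨m, rfl⟩ := hd
        rw [Nat.mul_div_cancel_left _ (Nat.pos_of_ne_zero hN0)]
        rintro rfl
        exact hk (mul_zero N)
      rw [if_pos hd] at hsig
      rw [if_pos hd, if_neg hkN, if_neg hk, if_neg hk, ← hsig]
      field_simp
      ring
    · rw [if_neg hd] at hsig
      rw [if_neg hd, if_neg hk, if_neg hk, ← hsig]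
      field_simp
      ring

end ExpAux

theorem hasExp_EstarFun {N : ℕ} (hN : 2 ≤ N) : HasExp 1 (EstarFun N) (EstarSeries N) := by
  have hN0 : N ≠ 0 := by omega
  have h1 : HasExp 1 (E2N N) (PowerSeries.expand N hN0 E2series) := hasExp_E2N hN0
  have h2 : HasExp 1 EisensteinSeries.E2 E2series := hasExp_E2
  have h3 := ((h1.smul (N : ℂ)).sub h2).smul ((N : ℂ) - 1)⁻¹
  rw [ExpAux.series_eq hN hN0] at h3
  refine h3.congr fun z => ?_
  rw [EstarFun_apply]
  simp only [Pi.smul_apply, Pi.sub_apply, smul_eq_mul]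
  rw [div_eq_inv_mul]

end Fermat.Agent.S16.E2
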