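import Fermat.Agent.S16.E2.Defs

/-!
# S16 / E2 / ExpE2: the expansions of E₂(z) and E₂(N z)
(one worker per file; the STATEMENTS are frozen by helper2 — prove them, do not change them;
auxiliary lemmas go into the namespace `Fermat.Agent.S16.E2.ExpE2Aux`.)
-/

set_option autoImplicit false

open UpperHalfPlane ModularForm CongruenceSubgroup Complex Function
open scoped MatrixGroups ModularForm Real Manifold

namespace Fermat.Agent.S16.E2

theorem hasExp_E2 : HasExp 1 EisensteinSeries.E2 E2series := by
  intro z
  have h := EisensteinSeries.hasSum_qExpansion_E2 z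
  have hfun : (fun m : ℕ => PowerSeries.coeff m E2series *
        Periodic.qParam ((1 : ℕ) : ℝ) (z : ℂ) ^ m)
      = fun m : ℕ => (if m = 0 then 1 else -24 * (ArithmeticFunction.sigma 1 m : ℂ) : ℂ) •
        Complex.exp (2 * π * Complex.I * z) ^ m := by
    funext m
    rw [E2series, PowerSeries.coeff_mk, smul_eq_mul, Periodic.qParam, Nat.cast_one,
      Complex.ofReal_one, div_one]
  rw [hfun]
  exact h

theorem hasExp_E2N {N : ℕ} (hN : N ≠ 0) :
    HasExp 1 (E2N N) (PowerSeries.expand N hN E2series) :=
  HasExp.comp_mul N hN hasExp_E2 (fun z w h => E2N_eq hN z w h)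

end Fermat.Agent.S16.E2
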