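import Mathlib
import Fermat.Agent.S23.Defs

/-!
# S16 / E2 / Form: a Γ₀(N)-invariant holomorphic function all of whose translates are bounded at i∞ is a modular form
(one worker per file; the STATEMENTS are frozen by helper2 — prove them, do not change them;
auxiliary lemmas go into the namespace `Fermat.Agent.S16.E2.FormAux`.)
-/

set_option autoImplicit false

open UpperHalfPlane ModularForm CongruenceSubgroup Complex Function
open scoped MatrixGroups ModularForm Real Manifold

namespace Fermat.Agent.S16.E2

open Fermat.Agent.S23 (Gam)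

/-- Constructor of modular forms of level `Γ₀(N)` from functions. -/
theorem exists_modularForm {N : ℕ} [NeZero N] {k : ℤ} (f : ℍ → ℂ)
    (hinv : ∀ γ : SL(2, ℤ), γ ∈ Gamma0 N → f ∣[k] γ = f) (hol : MDiff f)
    (hbdd : ∀ γ : SL(2, ℤ), IsBoundedAtImInfty (f ∣[k] γ)) :
    ∃ F : ModularForm (Gam N) k, (F : ℍ → ℂ) = f := by
  refine ⟨{ toFun := f
            slash_action_eq' := ?_
            holo' := hol
            bdd_at_cusps' := ?_ }, rfl⟩
  · rintro γ ⟨g, hg, rfl⟩
    exact hinv g hg
  · intro c hc
    rw [Subgroup.IsArithmetic.isCusp_iff_isCusp_SL2Z] at hc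
    rw [OnePoint.isBoundedAt_iff_forall_SL2Z hc]
    exact fun γ _ => hbdd γ

end Fermat.Agent.S16.E2
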