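import Fermat.Agent.S16.E2.Defs

/-!
# S16 / E2 / Holo: E*_N is holomorphic
(one worker per file; the STATEMENTS are frozen by helper2 — prove them, do not change them;
auxiliary lemmas go into the namespace `Fermat.Agent.S16.E2.HoloAux`.)
-/

set_option autoImplicit false

open UpperHalfPlane ModularForm CongruenceSubgroup Complex Function
open scoped MatrixGroups ModularForm Real Manifold

namespace Fermat.Agent.S16.E2

namespace HoloAux

/-- `E₂(N z) = N⁻¹ • (E₂ ∣[2] diag(N,1))(z)` for `N ≠ 0`. -/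
theorem E2N_eq_smul_slash {N : ℕ} (hN : N ≠ 0) :
    E2N N = ((N : ℂ) ^ ((2 : ℤ) - 1))⁻¹ •
      (EisensteinSeries.E2 ∣[(2 : ℤ)] ModularForm.heckeDiagMatrix N) := by
  funext z
  have hNC : (N : ℂ) ≠ 0 := Nat.cast_ne_zero.mpr hN
  rw [Pi.smul_apply, ModularForm.slash_heckeDiagMatrix_apply 2 hN, smul_eq_mul,
    inv_mul_cancel_left₀ (zpow_ne_zero _ hNC)]
  rfl

/-- `E₂(0 · z)` is `E₂` (junk value convention of `heckeDiagMatrix 0 = 1`). -/
theorem E2N_zero : E2N 0 = EisensteinSeries.E2 := by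
  funext z
  rw [E2N_apply, ModularForm.heckeDiagMatrix_zero, one_smul]

/-- `E*_N` as a linear combination of `E₂(N z)` and `E₂`. -/
theorem EstarFun_eq (N : ℕ) :
    EstarFun N = ((N : ℂ) - 1)⁻¹ • ((N : ℂ) • E2N N - EisensteinSeries.E2) := by
  funext z
  rw [EstarFun_apply, Pi.smul_apply, Pi.sub_apply, Pi.smul_apply, smul_eq_mul, smul_eq_mul,
    div_eq_inv_mul]

end HoloAux

theorem E2N_mdiff (N : ℕ) : MDiff (E2N N) := by
  rcases eq_or_ne N 0 with rfl | hN
  · rw [HoloAux.E2N_zero]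
    exact _root_.E2_mdifferentiable
  · rw [HoloAux.E2N_eq_smul_slash hN]
    exact (_root_.E2_mdifferentiable.slash 2 _).const_smul _

theorem EstarFun_mdiff (N : ℕ) : MDiff (EstarFun N) := by
  rw [HoloAux.EstarFun_eq]
  exact (((E2N_mdiff N).const_smul _).sub _root_.E2_mdifferentiable).const_smul _

end Fermat.Agent.S16.E2
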