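import Fermat.Agent.S16.E2.Defs
import Fermat.Agent.S16.VP.SlashDvd

/-!
# S16 / E2 / Inv: E*_N is invariant under Γ₀(N)
(one worker per file; the STATEMENTS are frozen by helper2 — prove them, do not change them;
auxiliary lemmas go into the namespace `Fermat.Agent.S16.E2.InvAux`.)
-/

set_option autoImplicit false

open UpperHalfPlane ModularForm CongruenceSubgroup Complex Function
open scoped MatrixGroups ModularForm Real Manifold

namespace Fermat.Agent.S16.E2

namespace InvAux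

/-- Pointwise linearity of the slash action, for `E*_N`. -/
theorem EstarFun_slash_apply (N : ℕ) (γ : SL(2, ℤ)) (z : ℍ) :
    ((EstarFun N) ∣[(2 : ℤ)] γ) z =
      ((N : ℂ) * ((E2N N) ∣[(2 : ℤ)] γ) z - (EisensteinSeries.E2 ∣[(2 : ℤ)] γ) z) /
        ((N : ℂ) - 1) := by
  rw [ModularForm.SL_slash_apply, ModularForm.SL_slash_apply, ModularForm.SL_slash_apply,
    EstarFun_apply]
  ring

/-- The translate of `E₂` by `γ`, pointwise. -/
theorem E2_slash_apply (γ : SL(2, ℤ)) (z : ℍ) :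
    (EisensteinSeries.E2 ∣[(2 : ℤ)] γ) z =
      EisensteinSeries.E2 z - (1 / (2 * riemannZeta 2)) * EisensteinSeries.D2 γ z := by
  rw [EisensteinSeries.E2_slash_action]
  rfl

/-- If `γ = [[a, b], [N c', d]]` and `γ' = [[*, *], [c', d]]`, then the defect terms of `γ` at `z`
and of `γ'` at `N z` differ by the factor `N`. -/
theorem D2_eq_mul {N : ℕ} (γ γ' : SL(2, ℤ)) (h10 : γ' 1 0 * (N : ℤ) = γ 1 0)
    (h11 : γ' 1 1 = γ 1 1) (z w : ℍ) (hw : (w : ℂ) = N * z) :
    EisensteinSeries.D2 γ z = (N : ℂ) * EisensteinSeries.D2 γ' w := by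
  have hden : denom γ' w = denom γ z := by
    rw [ModularGroup.denom_apply, ModularGroup.denom_apply, hw, ← h10, h11]
    push_cast
    ring
  unfold EisensteinSeries.D2
  rw [hden, ← h10]
  push_cast
  ring

end InvAux

/-- `E*_N ∣[2] γ = E*_N` for `γ ∈ Γ₀(N)`. -/
theorem EstarFun_slash {N : ℕ} (hN : N ≠ 0) (γ : SL(2, ℤ)) (hγ : γ ∈ Gamma0 N) :
    (EstarFun N) ∣[(2 : ℤ)] γ = EstarFun N := by
  have hdvd : (N : ℤ) ∣ γ 1 0 := by
    rw [CongruenceSubgroup.Gamma0_mem] at hγ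
    exact (ZMod.intCast_zmod_eq_zero_iff_dvd (γ 1 0) N).mp hγ
  obtain ⟨γ', h10, -, h11, hslash⟩ := VP.slash_of_dvd hN 2 (g := EisensteinSeries.E2)
    (G := E2N N) (fun z w h => E2N_eq hN z w h) γ hdvd
  funext z
  have hw : ((ModularForm.heckeDiagMatrix N • z : ℍ) : ℂ) = N * z :=
    ModularForm.coe_heckeDiagMatrix_smul hN z
  rw [InvAux.EstarFun_slash_apply, hslash z (ModularForm.heckeDiagMatrix N • z) hw,
    InvAux.E2_slash_apply, InvAux.E2_slash_apply,
    InvAux.D2_eq_mul γ γ' h10 h11 z (ModularForm.heckeDiagMatrix N • z) hw, EstarFun_apply,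
    E2N_apply]
  ring

end Fermat.Agent.S16.E2
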