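import Fermat.Agent.S16.E2.Inv
import Fermat.Agent.S16.E2.Bdd
import Fermat.Agent.S16.E2.Holo
import Fermat.Agent.S16.E2.Form
import Fermat.Agent.S16.E2.Exp

/-!
# S16 / E2 / Main (owner helper2): `E*_N ∈ M₂(Γ₀(N))` with its `q`-expansion (assembly)
-/

set_option autoImplicit false

open UpperHalfPlane ModularForm CongruenceSubgroup Complex Function
open scoped MatrixGroups ModularForm Real Manifold

namespace Fermat.Agent.S16.E2

open Fermat.Agent.S23 (Gam)

/-- (E2) For `N` prime there is `E ∈ M₂(Γ₀(N))` with `a₀ = 1`, `(N - 1) a_k = 24 σ'_N(k)`. -/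
theorem exists_Estar {N : ℕ} (hN : N.Prime) :
    ∃ E : ModularForm (Gam N) 2, (qExpansion 1 E).coeff 0 = 1 ∧
      ∀ k : ℕ, 1 ≤ k → ((N : ℂ) - 1) * (qExpansion 1 E).coeff k = 24 * (sigmaNat N k : ℂ) := by
  haveI : NeZero N := ⟨hN.ne_zero⟩
  obtain ⟨E, hE⟩ := exists_modularForm (k := 2) (EstarFun N)
    (fun γ hγ => EstarFun_slash hN.ne_zero γ hγ) (EstarFun_mdiff N) (EstarFun_slash_bdd hN)
  have hexp : HasExp 1 (E : ℍ → ℂ) (EstarSeries N) := by
    rw [hE]
    exact hasExp_EstarFun hN.two_le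
  have hq := HasExp.eq_qExpansion E hexp
  have h1 : ((N : ℂ) - 1) ≠ 0 := sub_ne_zero.mpr (by exact_mod_cast hN.one_lt.ne')
  refine ⟨E, ?_, fun k hk => ?_⟩
  · rw [hq, EstarSeries, PowerSeries.coeff_mk, if_pos rfl]
  · rw [hq, EstarSeries, PowerSeries.coeff_mk, if_neg (by omega), ← mul_assoc,
      mul_div_cancel₀ _ h1]

end Fermat.Agent.S16.E2
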